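import Fermat.Agent.S15.Sel.Defs
import Fermat.Agent.S15.Sel.Adm.Top
import Fermat.Agent.S19.Loc.Defs

/-!
# S15/S, block SB (Selmer bound `#𝒞 ≤ #G`, architect helper67): definitions

* `PairData r G e`: `e` is a perfect Galois equivariant pairing `G × G → μ_r` (in the application `e = weil r`, `G = Eis N r`).
* `F1Stmt`, `F2Stmt`: the two theorems of block FL (helper173), verbatim, as hypotheses (`Fermat.Agent.S15.FL.F1`, `.F2`).
* `CocData`: the part of `SelData` which does not involve `r`, `N`-types.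
-/

set_option autoImplicit false

namespace Fermat.Agent.S15.Sel

open Fermat.Agent.Lib.InertiaField Fermat.Agent.S15.Q

variable {J : Type*} [AddCommGroup J] [DistribMulAction GQ J]

/-- a perfect Galois equivariant pairing on `G` with values in the `r`-th roots of unity -/
structure PairData (r : ℕ) (G : AddSubgroup J) (e : J → J → Qb) : Prop where
  add_left : ∀ x ∈ G, ∀ y ∈ G, ∀ z ∈ G, e (x + y) z = e x z * e y z
  add_right : ∀ x ∈ G, ∀ y ∈ G, ∀ z ∈ G, e x (y + z) = e x y * e x z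
  pow : ∀ x ∈ G, ∀ y ∈ G, e x y ^ r = 1
  nondeg_left : ∀ x ∈ G, (∀ y ∈ G, e x y = 1) → x = 0
  nondeg_right : ∀ y ∈ G, (∀ x ∈ G, e x y = 1) → y = 0
  equiv : ∀ (σ : GQ), ∀ x ∈ G, ∀ y ∈ G, e (σ • x) (σ • y) = σ (e x y)

/-- `X` is isotropic -/
def Isotropic (e : J → J → Qb) (X : AddSubgroup J) : Prop := ∀ x ∈ X, ∀ y ∈ X, e x y = 1

/-- statement of `Fermat.Agent.S15.FL.F1` -/
def F1Stmt (r : ℕ) (A : ValuationSubring Qb) : Prop :=
  ∀ (c : GQ → ZMod r), (∀ s t, c (s * t) = c s + c t) → ∀ ζ : Qb, IsPrimitiveRoot ζ r →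
    (∀ j : ℕ, Fermat.Agent.S19.IsSI A (fun s => s (ζ ^ (j * (c s⁻¹).val)))) →
    ∀ s ∈ A.inertiaSubgroupIn ℚ, c s = 0

/-- statement of `Fermat.Agent.S15.FL.F2` -/
def F2Stmt (r : ℕ) (A : ValuationSubring Qb) : Prop :=
  ∀ (a : ℚ), a ≠ 0 → ∀ α : Qb, α ^ r = algebraMap ℚ Qb a →
    Fermat.Agent.S19.IsSI A (fun s => α / s α) → (r : ℤ) ∣ padicValRat r a

/-- a group of cocycles with values in `G`, of finite level, unramified outside `r N` -/
structure CocData (r N : ℕ) (𝔄 : Places) (G : AddSubgroup J) (𝒞 : AddSubgroup (GQ → J)) : Prop where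
  val : 𝒞 ≤ valued G
  coc : ∀ c ∈ 𝒞, ∀ σ τ : GQ, c (σ * τ) = c σ + σ • c τ
  fin : ∀ c ∈ 𝒞, ∃ F : IntermediateField ℚ Qb, FiniteDimensional ℚ F ∧
    ∀ σ : GQ, (∀ x ∈ F, σ x = x) → c σ = 0
  unr : ∀ c ∈ 𝒞, ∀ ℓ : ℕ, ℓ.Prime → ℓ ≠ r → ℓ ≠ N → ∀ τ ∈ (𝔄.pl ℓ).inertiaSubgroupIn ℚ, c τ = 0

/-- the subgroup generated by the values of the cocycles on a subset `S` of `G_ℚ` -/
def valuesOn (𝒞 : AddSubgroup (GQ → J)) (S : Set GQ) : AddSubgroup J :=
  AddSubgroup.closure {x | ∃ c ∈ 𝒞, ∃ τ ∈ S, x = c τ}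

end Fermat.Agent.S15.Sel
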