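import Fermat.Agent.S15.Sel.SB.Defs

/-!
# S15/S/SB: formal properties of `PairData`

All formal: `e 0 y * e 0 y = e (0 + 0) y = e 0 y` and `e 0 y ≠ 0` because `e 0 y ^ r = 1`, `r ≠ 0`; `e (-x) y * e x y = e 0 y = 1`; induction for `nsmul`.
`isotropic_closure`: a set of pairwise orthogonal elements of `G` generates an isotropic subgroup (`AddSubgroup.closure_induction` twice; `closure S ≤ G`).
-/

set_option autoImplicit false

namespace Fermat.Agent.S15.Sel

open Fermat.Agent.Lib.InertiaField Fermat.Agent.S15.Q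

variable {J : Type*} [AddCommGroup J] [DistribMulAction GQ J] {r : ℕ} {G : AddSubgroup J}
  {e : J → J → Qb}

theorem PairData.ne_zero (hr : r ≠ 0) (E : PairData r G e) (x y : J) (hx : x ∈ G) (hy : y ∈ G) :
    e x y ≠ 0 := by
  intro h
  have := E.pow x hx y hy
  rw [h, zero_pow hr] at this
  exact zero_ne_one this

theorem PairData.zero_left (hr : r ≠ 0) (E : PairData r G e) (y : J) (hy : y ∈ G) : e 0 y = 1 := by
  have h := E.add_left 0 G.zero_mem 0 G.zero_mem y hy
  rw [add_zero] at h
  exact (mul_eq_left₀ (E.ne_zero hr 0 y G.zero_mem hy)).1 h.symm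

theorem PairData.zero_right (hr : r ≠ 0) (E : PairData r G e) (x : J) (hx : x ∈ G) : e x 0 = 1 := by
  have h := E.add_right x hx 0 G.zero_mem 0 G.zero_mem
  rw [add_zero] at h
  exact (mul_eq_left₀ (E.ne_zero hr x 0 hx G.zero_mem)).1 h.symm

theorem PairData.neg_left (hr : r ≠ 0) (E : PairData r G e) (x y : J) (hx : x ∈ G) (hy : y ∈ G) :
    e (-x) y = (e x y)⁻¹ := by
  have h := E.add_left (-x) (G.neg_mem hx) x hx y hy
  rw [neg_add_cancel, E.zero_left hr y hy] at h
  exact eq_inv_of_mul_eq_one_left h.symm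

theorem PairData.neg_right (hr : r ≠ 0) (E : PairData r G e) (x y : J) (hx : x ∈ G) (hy : y ∈ G) :
    e x (-y) = (e x y)⁻¹ := by
  have h := E.add_right x hx (-y) (G.neg_mem hy) y hy
  rw [neg_add_cancel, E.zero_right hr x hx] at h
  exact eq_inv_of_mul_eq_one_left h.symm

theorem PairData.nsmul_left (hr : r ≠ 0) (E : PairData r G e) (k : ℕ) (x y : J) (hx : x ∈ G)
    (hy : y ∈ G) : e (k • x) y = e x y ^ k := by
  induction k with
  | zero => rw [zero_smul, pow_zero, E.zero_left hr y hy]
  | succ k ih => rw [succ_nsmul, E.add_left _ (G.nsmul_mem hx k) x hx y hy, ih, pow_succ]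

theorem PairData.nsmul_right (hr : r ≠ 0) (E : PairData r G e) (k : ℕ) (x y : J) (hx : x ∈ G)
    (hy : y ∈ G) : e x (k • y) = e x y ^ k := by
  induction k with
  | zero => rw [zero_smul, pow_zero, E.zero_right hr x hx]
  | succ k ih => rw [succ_nsmul, E.add_right x hx _ (G.nsmul_mem hy k) y hy, ih, pow_succ]

theorem isotropic_closure (hr : r.Prime) (E : PairData r G e) (S : Set J) (hS : S ⊆ G)
    (h : ∀ x ∈ S, ∀ y ∈ S, e x y = 1) : Isotropic e (AddSubgroup.closure S) := by
  have hr0 : r ≠ 0 := hr.ne_zero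
  have hle : AddSubgroup.closure S ≤ G := (AddSubgroup.closure_le G).2 hS
  -- first: `e x y = 1` for `x ∈ S`, `y ∈ closure S`
  have h1 : ∀ x ∈ S, ∀ y ∈ AddSubgroup.closure S, e x y = 1 := by
    intro x hx y hy
    induction hy using AddSubgroup.closure_induction with
    | mem y hy => exact h x hx y hy
    | zero => exact E.zero_right hr0 x (hS hx)
    | add y z hy hz ihy ihz => rw [E.add_right x (hS hx) y (hle hy) z (hle hz), ihy, ihz, one_mul]
    | neg y hy ihy => rw [E.neg_right hr0 x y (hS hx) (hle hy), ihy, inv_one]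
  intro x hx y hy
  induction hx using AddSubgroup.closure_induction with
  | mem x hx => exact h1 x hx y hy
  | zero => exact E.zero_left hr0 y (hle hy)
  | add x z hx hz ihx ihz => rw [E.add_left x (hle hx) z (hle hz) y (hle hy), ihx, ihz, one_mul]
  | neg x hx ihx => rw [E.neg_left hr0 x y (hle hx) (hle hy), ihx, inv_one]

end Fermat.Agent.S15.Sel
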