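import Fermat.Agent.S15.Sel.SB.Basic
import Fermat.Agent.S15.Sel.Adm.Chain

/-!
# S15/S/SB: the generalised eigenspace of `σ₀` for the eigenvalue `k = χ(σ₀) ≠ 1` is isotropic

`σ₀ ζ = ζ ^ k ≠ ζ`.  For `x, y ∈ G` with `D^[a] x = 0`, `D^[b] y = 0` (`D z = σ₀ • z - k • z`, maps `G` to `G`): `e x y = 1`, by induction on `a + b` (if `a = 0` then `x = 0`):
`σ₀ • x = k • x + D x`, so `e x y ^ k = σ₀ (e x y) = e (σ₀ • x) (σ₀ • y) = e x y ^ (k * k) * e x (D y) ^ k * e (D x) y ^ k * e (D x) (D y) = e x y ^ (k * k)`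
(`σ₀ u = u ^ k` for `u ^ r = 1`: `u` is a power of `ζ`);
with `u = e x y ^ k`: `u ^ k = u`, `u ^ r = 1`, hence `u = 1` (if `u ≠ 1` it is a primitive `r`-th root of unity (`r` prime), `ζ` is a power of `u`, so `ζ ^ k = ζ`);
then `e x y ^ k = 1`, `e x y ^ r = 1`, `r ∤ k` (`ζ ^ k = σ₀ ζ ≠ 1`) give `e x y = 1` (`Nat.Coprime`, `pow_gcd_eq_one`/`IsCoprime`).
`mem_genEigen` translates membership.
-/

set_option autoImplicit false

namespace Fermat.Agent.S15.Sel

open Fermat.Agent.Lib.InertiaField Fermat.Agent.S15.Q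

variable {J : Type*} [AddCommGroup J] [DistribMulAction GQ J] {r : ℕ} {G : AddSubgroup J}
  {e : J → J → Qb}

/-- an `r`-th root of unity `w` with `w ^ k = w ^ (k * k)` is trivial if `k ≢ 0, 1` modulo `r` -/
theorem genEigenAux_eq_one (hr : r.Prime) {ζ : Qb} (hζ : IsPrimitiveRoot ζ r) (k : ℕ)
    (h1 : ζ ^ k ≠ 1) (h2 : ζ ^ k ≠ ζ) (w : Qb) (hw : w ^ r = 1) (h : w ^ k = w ^ (k * k)) :
    w = 1 := by
  have : NeZero r := ⟨hr.ne_zero⟩
  obtain ⟨i, -, rfl⟩ := hζ.eq_pow_of_pow_eq_one hw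
  rcases k with _ | k
  · exact absurd (pow_zero ζ) h1
  have h3 : ζ ^ (i * (k + 1) * k) = 1 := by
    have hne : ζ ^ (i * (k + 1)) ≠ 0 := pow_ne_zero _ (hζ.ne_zero hr.ne_zero)
    apply mul_left_cancel₀ hne
    rw [mul_one, ← pow_add]
    rw [← pow_mul, ← pow_mul] at h
    rw [h]
    congr 1
    ring
  rw [hζ.pow_eq_one_iff_dvd] at h3
  rcases hr.dvd_mul.1 h3 with h4 | h4
  · rcases hr.dvd_mul.1 h4 with h5 | h5
    · exact (hζ.pow_eq_one_iff_dvd i).2 h5
    · exact absurd ((hζ.pow_eq_one_iff_dvd _).2 h5) h1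
  · exact absurd (by rw [pow_succ, (hζ.pow_eq_one_iff_dvd _).2 h4, one_mul]) h2

theorem isotropic_genEigen (hr : r.Prime) (ζ : Qb) (hζ : IsPrimitiveRoot ζ r)
    (stable : ∀ (σ : GQ), ∀ g ∈ G, σ • g ∈ G) (E : PairData r G e) (σ₀ : GQ) (k n : ℕ)
    (hk : σ₀ ζ = ζ ^ k) (hk' : ζ ^ k ≠ ζ) : Isotropic e (genEigen G σ₀ k n) := by
  have hr0 : r ≠ 0 := hr.ne_zero
  have : NeZero r := ⟨hr0⟩
  have hDG : ∀ x ∈ G, σ₀ • x - k • x ∈ G := fun x hx =>
    G.sub_mem (stable σ₀ x hx) (G.nsmul_mem hx k)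
  have hζ1 : ζ ^ k ≠ 1 := by
    intro h
    have h1 : ζ = 1 := σ₀.injective (by rw [hk, h, map_one])
    exact hk' (by rw [h, h1])
  have hσ : ∀ u : Qb, u ^ r = 1 → σ₀ u = u ^ k := by
    intro u hu
    obtain ⟨i, -, rfl⟩ := hζ.eq_pow_of_pow_eq_one hu
    rw [map_pow, hk, ← pow_mul, ← pow_mul, mul_comm]
  have key : ∀ m a b : ℕ, a + b ≤ m → ∀ x ∈ G, ∀ y ∈ G,
      (fun x : J => σ₀ • x - k • x)^[a] x = 0 → (fun x : J => σ₀ • x - k • x)^[b] y = 0 →
      e x y = 1 := by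
    intro m
    induction m with
    | zero =>
      intro a b hab x hx y hy hxa hyb
      have ha : a = 0 := by omega
      subst ha
      have hx0 : x = 0 := hxa
      rw [hx0]
      exact E.zero_left hr0 y hy
    | succ m ih =>
      intro a b hab x hx y hy hxa hyb
      rcases a with _ | a
      · have hx0 : x = 0 := hxa
        rw [hx0]
        exact E.zero_left hr0 y hy
      rcases b with _ | b
      · have hy0 : y = 0 := hyb
        rw [hy0]
        exact E.zero_right hr0 x hx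
      have hxa' : (fun x : J => σ₀ • x - k • x)^[a] (σ₀ • x - k • x) = 0 := by
        rw [Function.iterate_succ_apply] at hxa
        exact hxa
      have hyb' : (fun x : J => σ₀ • x - k • x)^[b] (σ₀ • y - k • y) = 0 := by
        rw [Function.iterate_succ_apply] at hyb
        exact hyb
      have h1 : e x (σ₀ • y - k • y) = 1 :=
        ih (a + 1) b (by omega) x hx _ (hDG y hy) hxa hyb'
      have h2 : e (σ₀ • x - k • x) y = 1 :=
        ih a (b + 1) (by omega) _ (hDG x hx) y hy hxa' hyb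
      have h3 : e (σ₀ • x - k • x) (σ₀ • y - k • y) = 1 :=
        ih a b (by omega) _ (hDG x hx) _ (hDG y hy) hxa' hyb'
      have ex : σ₀ • x = k • x + (σ₀ • x - k • x) := by abel
      have ey : σ₀ • y = k • y + (σ₀ • y - k • y) := by abel
      have hkx : k • x ∈ G := G.nsmul_mem hx k
      have hky : k • y ∈ G := G.nsmul_mem hy k
      have h4 : e (σ₀ • x) (σ₀ • y) = e x y ^ (k * k) := by
        conv_lhs => rw [ex, ey]
        rw [E.add_left _ hkx _ (hDG x hx) _ (G.add_mem hky (hDG y hy)),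
          E.add_right _ hkx _ hky _ (hDG y hy), E.add_right _ (hDG x hx) _ hky _ (hDG y hy),
          E.nsmul_left hr0 k x (k • y) hx hky, E.nsmul_right hr0 k x y hx hy,
          E.nsmul_left hr0 k x _ hx (hDG y hy), h1,
          E.nsmul_right hr0 k _ y (hDG x hx) hy, h2, h3, one_pow, mul_one, mul_one,
          mul_one, ← pow_mul]
      rw [E.equiv σ₀ x hx y hy, hσ _ (E.pow x hx y hy)] at h4
      exact genEigenAux_eq_one hr hζ k hζ1 hk' _ (E.pow x hx y hy) h4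
  intro x hx y hy
  rw [mem_genEigen] at hx hy
  exact key (n + n) n n le_rfl x hx.1 y hy.1 hx.2 hy.2

end Fermat.Agent.S15.Sel
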