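import Fermat.Agent.S15.Sel.SB.Repr
import Fermat.Agent.S15.Sel.Extend
import Fermat.Agent.S15.Sel.Step

/-!
# S15/S/SB: an isotropic subgroup `X` of `G` has `#X ^ 2 ≤ #G`

`Xp := {y ∈ G | ∀ x ∈ X, e x y = 1} ⊇ X`, so it suffices to prove `#X * #Xp ≤ #G`.
Route A (counting, uses only the two landed lemmas): `Φ : G → (X → Qb)`, `y ↦ (x ↦ e x y)`.  Its fibres are cosets of `Xp`, so `#G = #(image Φ) * #Xp`; and the image is the set of ALL characters of
`X` (a character of `X` extends to `G`: `exists_extend_char` with `V = ↥G`; then `exists_repr_char`), which has at least `#X` elements: the characters of `X` separate the points of `X`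
(`nondeg_left`), and a finite elementary abelian `r`-group whose characters ... (`#Hom(X, μ_r) = #X`, `CommGroup.card_monoidHom_of_hasEnoughRootsOfUnity`-type lemma or dual dimension).
Route B (linear algebra): with the bilinear form `B` (`e x y = ζ ^ (B x y).val`) on `V = ↥G` over `ZMod r`, `Xp` is the orthogonal of the subspace `X`; `B` nondegenerate gives
`finrank X + finrank Xp = finrank V` (`LinearMap.BilinForm.finrank_orthogonal`-type lemma, or `Subspace.finrank_add_finrank_dualAnnihilator_eq` through `V ≃ Dual V`), `#W = r ^ finrank W`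
(`Module.card_eq_pow_finrank`).
Route C (shortest?): `x ↦ (class of y ↦ e x y)` embeds `X` in the characters of `G ⧸ Xp` (`nondeg_left`), and a finite abelian group `Q` killed by `r` has at most `#Q` characters.
-/

set_option autoImplicit false

namespace Fermat.Agent.S15.Sel

open Fermat.Agent.Lib.InertiaField Fermat.Agent.S15.Q

variable {J : Type*} [AddCommGroup J] [DistribMulAction GQ J] {r : ℕ} {G : AddSubgroup J}
  {e : J → J → Qb}

/-- the sum of the values of a nontrivial character is zero -/
private theorem isotropic_sum_char {H : Type*} [AddCommGroup H] [Fintype H] (χ : H → Qb)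
    (hmul : ∀ a b, χ (a + b) = χ a * χ b) (h₀ : H) (h : χ h₀ ≠ 1) : ∑ a, χ a = 0 := by
  have h1 : ∑ a, χ a = χ h₀ * ∑ a, χ a := by
    rw [Finset.mul_sum, ← Equiv.sum_comp (Equiv.addRight h₀)]
    refine Finset.sum_congr rfl fun a _ => ?_
    rw [Equiv.coe_addRight, hmul, mul_comm]
  have h2 : (1 - χ h₀) * ∑ a, χ a = 0 := by linear_combination h1
  exact (mul_eq_zero.mp h2).resolve_left (sub_ne_zero.mpr (Ne.symm h))

/-- (double counting of `∑_{x ∈ X} ∑_{y ∈ G} e x y`: `#G = #X * #Xp`, `Xp ⊇ X` the orthogonal.) -/
theorem card_sq_le_of_isotropic (hr : r.Prime) (ζ : Qb) (hζ : IsPrimitiveRoot ζ r) [Finite G]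
    (gtors : ∀ g ∈ G, r • g = 0) (E : PairData r G e) (X : AddSubgroup J) (hX : X ≤ G)
    (hiso : Isotropic e X) : Nat.card X ^ 2 ≤ Nat.card G := by
  classical
  have : Finite X := Finite.of_injective (AddSubgroup.inclusion hX) (AddSubgroup.inclusion_injective hX)
  have : Fintype G := Fintype.ofFinite G
  have : Fintype X := Fintype.ofFinite X
  have hzero : ∀ y ∈ G, e 0 y = 1 := by
    intro y hy
    have h1 := E.add_left 0 G.zero_mem 0 G.zero_mem y hy
    rw [add_zero] at h1
    have h2 : e 0 y ≠ 0 := by
      intro h0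
      have h3 := E.pow 0 G.zero_mem y hy
      rw [h0, zero_pow hr.ne_zero] at h3
      exact zero_ne_one h3
    exact (mul_eq_left₀ h2).mp h1.symm
  -- sums over `G`
  have hG : ∀ x : X, ∑ y : G, e (x : J) (y : J) = if x = 0 then (Fintype.card G : Qb) else 0 := by
    intro x
    split_ifs with hx
    · subst hx
      rw [AddSubgroup.coe_zero, Finset.sum_congr rfl fun (y : G) _ => hzero y y.2]
      simp
    · have hex : ∃ y ∈ G, e (x : J) y ≠ 1 := by
        by_contra hcon
        push Not at hcon
        exact hx (Subtype.ext (E.nondeg_left x (hX x.2) hcon))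
      obtain ⟨y₀, hy₀, hne⟩ := hex
      exact isotropic_sum_char (fun y : G => e (x : J) (y : J))
        (fun a b => E.add_right x (hX x.2) a a.2 b b.2) ⟨y₀, hy₀⟩ hne
  -- sums over `X`
  have hXs : ∀ y : G, ∑ x : X, e (x : J) (y : J) =
      if (∀ x : X, e (x : J) (y : J) = 1) then (Fintype.card X : Qb) else 0 := by
    intro y
    split_ifs with hy
    · rw [Finset.sum_congr rfl fun (x : X) _ => hy x]
      simp
    · push Not at hy
      obtain ⟨x₀, hne⟩ := hy
      exact isotropic_sum_char (fun x : X => e (x : J) (y : J))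
        (fun a b => E.add_left a (hX a.2) b (hX b.2) y y.2) x₀ hne
  set T : Finset G := Finset.univ.filter fun y : G => ∀ x : X, e (x : J) (y : J) = 1 with hT
  have hcount : (Fintype.card G : Qb) = ((Fintype.card X * T.card : ℕ) : Qb) := by
    have h1 : ∑ x : X, ∑ y : G, e (x : J) (y : J) = (Fintype.card G : Qb) := by
      rw [Finset.sum_congr rfl fun (x : X) _ => hG x]
      simp
    have h2 : ∑ y : G, ∑ x : X, e (x : J) (y : J) = (T.card : Qb) * (Fintype.card X : Qb) := by
      rw [Finset.sum_congr rfl fun (y : G) _ => hXs y, ← Finset.sum_filter, Finset.sum_const,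
        nsmul_eq_mul]
    rw [← h1, Finset.sum_comm, h2]
    push_cast
    ring
  have hcount' : Fintype.card G = Fintype.card X * T.card := Nat.cast_injective hcount
  have hle : Fintype.card X ≤ T.card := by
    rw [← Finset.card_univ]
    refine Finset.card_le_card_of_injOn (fun x : X => (⟨x, hX x.2⟩ : G)) ?_ ?_
    · intro x _
      rw [hT, Finset.coe_filter]
      exact ⟨Finset.mem_univ _, fun x' => hiso x' x'.2 x x.2⟩
    · intro a _ b _ hab
      exact Subtype.ext (congrArg (fun z : G => (z : J)) hab)
  rw [Nat.card_eq_fintype_card, Nat.card_eq_fintype_card, hcount', sq]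
  exact Nat.mul_le_mul_left _ hle

end Fermat.Agent.S15.Sel
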