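import Fermat.Agent.S15.Sel.SB.Basic

/-!
# S15/S/SB: every character of `G` is represented by the pairing

`exists_repr_char`: every character `lam` of `G` is `x ↦ e x w` for some `w ∈ G`.
Proof: let `V := ↥G`, a finite `ZMod r`-vector space (`AddCommGroup.zmodModule`).  `e x w = ζ ^ (B x w).val` with `B : V → V → ZMod r` biadditive
(`IsPrimitiveRoot.eq_pow_of_pow_eq_one`, uniqueness of the exponent `< r`: `IsPrimitiveRoot.pow_inj`), hence bilinear; `w ↦ B · w` is an injective linear map
`V → Module.Dual (ZMod r) V` (`nondeg_right`), hence surjective (`LinearMap.injective_iff_surjective_of_finrank_eq_finrank`, `Subspace.dual_finrank_eq`);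
`lam x = ζ ^ (f x).val` with `f` additive, hence linear.
(Alternative without linear algebra: the characters `V →+ ZMod r` (or `Multiplicative V →* Qbˣ`) are at most `#V` in number
(`CommGroup.card_monoidHom_of_hasEnoughRootsOfUnity`-type lemma), and an injective map between finite sets with `#source ≥ #target` is surjective.)

The proof below follows the alternative.
-/

set_option autoImplicit false

namespace Fermat.Agent.S15.Sel

open Fermat.Agent.Lib.InertiaField Fermat.Agent.S15.Q

variable {J : Type*} [AddCommGroup J] [DistribMulAction GQ J] {r : ℕ} {G : AddSubgroup J}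
  {e : J → J → Qb}

/-- the homomorphism `Multiplicative G →* Qbˣ` attached to a character -/
noncomputable def IsChar.toHom (hr : r ≠ 0) {lam : J → Qb} (hlam : IsChar r G lam) :
    Multiplicative G →* Qbˣ :=
  MonoidHom.mk' (fun x => Units.mk0 (lam ((Multiplicative.toAdd x : G) : J)) (by
      intro h0
      have h1 := hlam.2 _ (Multiplicative.toAdd x : G).2
      rw [h0, zero_pow hr] at h1
      exact zero_ne_one h1)) (by
    intro x y
    apply Units.ext
    simp only [Units.val_mk0, Units.val_mul, toAdd_mul, AddSubgroup.coe_add]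
    exact hlam.1 _ (Multiplicative.toAdd x : G).2 _ (Multiplicative.toAdd y : G).2)

theorem IsChar.toHom_apply (hr : r ≠ 0) {lam : J → Qb} (hlam : IsChar r G lam) (x : G) :
    ((hlam.toHom hr (Multiplicative.ofAdd x) : Qbˣ) : Qb) = lam x := rfl

theorem PairData.isChar_right (E : PairData r G e) (w : J) (hw : w ∈ G) :
    IsChar r G (fun x => e x w) :=
  ⟨fun x hx y hy => E.add_left x hx y hy w hw, fun x hx => E.pow x hx w hw⟩

theorem exists_repr_char (hr : r.Prime) (ζ : Qb) (hζ : IsPrimitiveRoot ζ r) [Finite G]
    (gtors : ∀ g ∈ G, r • g = 0) (E : PairData r G e) (lam : J → Qb) (hlam : IsChar r G lam) :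
    ∃ w ∈ G, ∀ x ∈ G, lam x = e x w := by
  have hr0 : r ≠ 0 := hr.ne_zero
  haveI : NeZero r := ⟨hr0⟩
  haveI h1 : HasEnoughRootsOfUnity Qb r := ⟨⟨ζ, hζ⟩, rootsOfUnity.isCyclic Qb r⟩
  have hexp : Monoid.exponent (Multiplicative G) ∣ r := by
    apply Monoid.exponent_dvd_of_forall_pow_eq_one
    intro g
    have h2 := gtors _ (Multiplicative.toAdd g : G).2
    apply Multiplicative.toAdd.injective
    apply Subtype.ext
    simpa using h2
  haveI h2 : HasEnoughRootsOfUnity Qb (Monoid.exponent (Multiplicative G)) :=
    HasEnoughRootsOfUnity.of_dvd Qb hexp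
  have hcard : Nat.card (Multiplicative G →* Qbˣ) = Nat.card (Multiplicative G) :=
    CommGroup.card_monoidHom_of_hasEnoughRootsOfUnity (Multiplicative G) Qb
  let Φ : G → (Multiplicative G →* Qbˣ) := fun w => (E.isChar_right w w.2).toHom hr0
  have hinj : Function.Injective Φ := by
    intro w w' hww
    have h3 : ∀ x ∈ G, e x (w - w' : J) = 1 := by
      intro x hx
      have h4 : e x w = e x w' := by
        have := congrArg (fun f : Multiplicative G →* Qbˣ =>
          ((f (Multiplicative.ofAdd (⟨x, hx⟩ : G)) : Qbˣ) : Qb)) hww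
        exact this
      rw [sub_eq_add_neg, E.add_right x hx w w.2 (-w') (G.neg_mem w'.2),
        E.neg_right hr0 x w' hx w'.2, h4]
      apply mul_inv_cancel₀
      intro h0
      have h5 := E.pow x hx w' w'.2
      rw [h0, zero_pow hr0] at h5
      exact zero_ne_one h5
    have h6 := E.nondeg_right _ (G.sub_mem w.2 w'.2) h3
    exact Subtype.ext (sub_eq_zero.mp h6)
  haveI : Finite (Multiplicative G →* Qbˣ) := by
    apply Nat.finite_of_card_ne_zero
    rw [hcard]
    exact Nat.card_pos.ne'
  have hsurj : Function.Surjective Φ := by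
    have hb : Function.Bijective Φ := by
      apply hinj.bijective_of_nat_card_le
      rw [hcard]
      exact le_of_eq (Nat.card_congr Multiplicative.toAdd)
    exact hb.2
  obtain ⟨w, hw⟩ := hsurj (hlam.toHom hr0)
  refine ⟨w, w.2, fun x hx => ?_⟩
  have := congrArg (fun f : Multiplicative G →* Qbˣ =>
    ((f (Multiplicative.ofAdd (⟨x, hx⟩ : G)) : Qbˣ) : Qb)) hw
  exact this.symm

end Fermat.Agent.S15.Sel
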