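import Fermat.Agent.S15.Sel.SB.Basic
import Fermat.Agent.S15.Sel.SB.Repr
import Fermat.Agent.S15.Sel.SB.Isotropic
import Fermat.Agent.S15.Sel.SB.GenEigen
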