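import Fermat.Agent.S15.Sel.SB.FL
import Fermat.Agent.S15.Sel.SB.Pair
import Fermat.Agent.S15.Q.Real
import Fermat.Agent.S15.Q.Cyclo

/-!
# S15/S/SB: the two instances of `SelData`

* `selData_odd`: `r` odd.  `σ₀` in the inertia group at `r` with `σ₀ ζ ≠ ζ` (`Q.exists_inertia_moving`), `σ₀ ζ = ζ ^ k` (`IsPrimitiveRoot.eq_pow_of_pow_eq_one`), `n` from `NilCond`;
  `Tor := valuesOn 𝒞 (inertia at N)`, `X0 := genEigen G σ₀ k n`, `Et := UnrAt (𝔄.pl r)`.  Fields: `typ` = `typ_of_nilCond`; `etc` = `isSI_char` + `unrAt_of_isSI`; `zc` = `isSI_char` + `valDvd_of_isSI`;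
  `atN` = `AddSubgroup.subset_closure`.
* `selData_two`: `r = 2`.  `X0 := valuesOn 𝒞 {κ}`, `Et h := ValDvd 2 2 h ∧ h κ = 1`; `typ` is vacuous; `etc`: `lam (c κ) = 1` because `c κ ∈ X0`; `ValDvd` from
  `Q.isCoc_of_isHom_two` + `zc`.
* `selmer_bound`: `card_le` + `chain_of_nilCond` + `card_sq_le_of_isotropic` for `Tor` (`isotropic_closure`, `locN`) and `X0` (`isotropic_genEigen` resp. `isotropic_closure`, `locInf`):
  `#𝒞 ^ 2 ≤ #Tor ^ 2 * #X0 ^ 2 ≤ #G ^ 2` (`Nat.pow_le_pow_left`, `Nat.pow_le_pow_iff_left`/`lt_of_pow_lt_pow_left`).  `Tor, X0 ≤ G` are finite (`Finite.of_injective`/`Set.Finite.subset`).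
-/

set_option autoImplicit false

namespace Fermat.Agent.S15.Sel

open Fermat.Agent.Lib.InertiaField Fermat.Agent.S15.Q

variable {J : Type*} [AddCommGroup J] [DistribMulAction GQ J] {r N : ℕ} {𝔄 : Places} {ζ : Qb}
  {G : AddSubgroup J} {e : J → J → Qb} {𝒞 : AddSubgroup (GQ → J)}

theorem valuesOn_le (C : CocData r N 𝔄 G 𝒞) (S : Set GQ) : valuesOn 𝒞 S ≤ G := by
  refine (AddSubgroup.closure_le G).2 ?_
  rintro x ⟨c, hc, τ, -, rfl⟩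
  exact C.val hc τ

theorem selData_odd (hr : r.Prime) (hr2 : r ≠ 2) (hζ : IsPrimitiveRoot ζ r) [Finite G]
    (gtors : ∀ g ∈ G, r • g = 0) (stable : ∀ (σ : GQ), ∀ g ∈ G, σ • g ∈ G) (E : PairData r G e)
    (hnil : NilCond ζ G) (C : CocData r N 𝔄 G 𝒞)
    (hFL : ∀ c ∈ 𝒞, ∀ w ∈ G, Fermat.Agent.S19.IsSI (𝔄.pl r) (fun s : GQ => e (c s) (s • w)))
    (F1 : F1Stmt r (𝔄.pl r)) (F2 : F2Stmt r (𝔄.pl r)) :
    ∃ (σ₀ : GQ) (k n : ℕ), σ₀ ζ = ζ ^ k ∧ ζ ^ k ≠ ζ ∧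
      SelData r N 𝔄 ζ (UnrAt (𝔄.pl r)) G (valuesOn 𝒞 ((𝔄.pl N).inertiaSubgroupIn ℚ : Set GQ))
        (genEigen G σ₀ k n) 𝒞 := by
  obtain ⟨σ₀, -, hmove⟩ := exists_inertia_moving (𝔄.pl r) r hr hr2 (𝔄.liesOver r hr) ζ hζ
  have hpow : (σ₀ ζ) ^ r = 1 := by rw [← map_pow, hζ.pow_eq_one, map_one]
  haveI : NeZero r := ⟨hr.ne_zero⟩
  obtain ⟨k, -, hk⟩ := hζ.eq_pow_of_pow_eq_one hpow
  have hk1 : σ₀ ζ = ζ ^ k := hk.symm
  have hk2 : ζ ^ k ≠ ζ := by rw [hk]; exact hmove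
  obtain ⟨n, hn⟩ := hnil σ₀ k hk1
  have htyp := typ_of_nilCond ζ G stable σ₀ k n hn
  refine ⟨σ₀, k, n, hk1, hk2, ?_⟩
  exact
    { gtors := gtors
      x0le := fun g hg => ((mem_genEigen G σ₀ k n g).1 hg).1
      val := C.val
      coc := C.coc
      fin := C.fin
      unr := C.unr
      atN := fun c hc τ hτ => AddSubgroup.subset_closure ⟨c, hc, τ, hτ, rfl⟩
      typ := fun _ => ⟨σ₀, k, n, hk1, hk2, htyp.1, htyp.2⟩
      etc := fun c hc lam hlam _ hhom =>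
        unrAt_of_isSI hr ζ hζ (𝔄.pl r) F1 (fun σ => lam (c σ)) (fun σ => hlam.2 _ (C.val hc σ)) hhom
          (isSI_char hr ζ hζ gtors stable E C (𝔄.pl r) hFL c hc lam hlam)
      zc := fun c hc lam hlam hcoc =>
        valDvd_of_isSI hr (𝔄.pl r) F2 (fun σ => lam (c σ)) (fun σ => hlam.2 _ (C.val hc σ)) hcoc
          (isSI_char hr ζ hζ gtors stable E C (𝔄.pl r) hFL c hc lam hlam) }

theorem selData_two (hζ : IsPrimitiveRoot ζ 2) [Finite G]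
    (gtors : ∀ g ∈ G, 2 • g = 0) (stable : ∀ (σ : GQ), ∀ g ∈ G, σ • g ∈ G) (E : PairData 2 G e)
    (C : CocData 2 N 𝔄 G 𝒞)
    (hFL : ∀ c ∈ 𝒞, ∀ w ∈ G, Fermat.Agent.S19.IsSI (𝔄.pl 2) (fun s : GQ => e (c s) (s • w)))
    (F2 : F2Stmt 2 (𝔄.pl 2)) (κ : GQ) :
    SelData 2 N 𝔄 ζ (fun h => ValDvd 2 2 h ∧ h κ = 1) G
      (valuesOn 𝒞 ((𝔄.pl N).inertiaSubgroupIn ℚ : Set GQ)) (valuesOn 𝒞 {κ}) 𝒞 := by
  have hzc : ∀ c ∈ 𝒞, ∀ lam : J → Qb, IsChar 2 G lam →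
      IsCoc (fun σ => lam (c σ)) → ValDvd 2 2 (fun σ => lam (c σ)) := fun c hc lam hlam hcoc =>
    valDvd_of_isSI Nat.prime_two (𝔄.pl 2) F2 (fun σ => lam (c σ))
      (fun σ => hlam.2 _ (C.val hc σ)) hcoc
      (isSI_char Nat.prime_two ζ hζ gtors stable E C (𝔄.pl 2) hFL c hc lam hlam)
  exact
    { gtors := gtors
      x0le := valuesOn_le C {κ}
      val := C.val
      coc := C.coc
      fin := C.fin
      unr := C.unr
      atN := fun c hc τ hτ => AddSubgroup.subset_closure ⟨c, hc, τ, hτ, rfl⟩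
      typ := fun h => absurd rfl h
      etc := fun c hc lam hlam hX0 hhom =>
        ⟨hzc c hc lam hlam
          (isCoc_of_isHom_two (fun σ => lam (c σ)) (fun σ => hlam.2 _ (C.val hc σ)) hhom),
          hX0 (c κ) (AddSubgroup.subset_closure ⟨c, hc, κ, rfl, rfl⟩)⟩
      zc := hzc }

end Fermat.Agent.S15.Sel
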