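import Fermat.Agent.S15.Sel.SB.Defs
import Fermat.Agent.S19.Loc.Calc

/-!
# S15/S/SB: (F1) in the form needed by `SelData.etc`

`h` a homomorphism with `h s ^ r = 1`: `h s = ζ ^ (c' s).val` for a unique `c' : GQ → ZMod r` (`IsPrimitiveRoot.eq_pow_of_pow_eq_one` gives `i < r`; `c' s := (i : ZMod r)`, `ZMod.val_natCast_of_lt`/`ZMod.val_cast_of_lt`;
needs `NeZero r`), additive (`IsPrimitiveRoot.pow_inj`, `ZMod.val_add`, `pow_eq_pow_mod`, or compare in `ZMod r` through `IsPrimitiveRoot.pow_eq_pow_iff_modEq`-type lemma);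
`s (ζ ^ (j * (c' s⁻¹).val)) = (s (h s⁻¹)) ^ j`: `IsSI.pow`, `IsSI.congr`; `F1 c' _ ζ hζ _ s hs : c' s = 0`, so `h s = ζ ^ 0 = 1`.
-/

set_option autoImplicit false

namespace Fermat.Agent.S15.Sel

open Fermat.Agent.Lib.InertiaField Fermat.Agent.S15.Q

theorem unrAt_of_isSI {r : ℕ} (hr : r.Prime) (ζ : Qb) (hζ : IsPrimitiveRoot ζ r) (A : ValuationSubring Qb)
    (F1 : F1Stmt r A) (h : GQ → Qb) (hpow : ∀ σ, h σ ^ r = 1) (hhom : IsHom h)
    (hSI : Fermat.Agent.S19.IsSI A (fun s : GQ => s (h s⁻¹))) : UnrAt A h := by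
  have : NeZero r := ⟨hr.ne_zero⟩
  have hex : ∀ σ : GQ, ∃ i : ℕ, i < r ∧ ζ ^ i = h σ := fun σ =>
    hζ.eq_pow_of_pow_eq_one (hpow σ)
  choose i hi hζi using hex
  set c' : GQ → ZMod r := fun σ => ((i σ : ℕ) : ZMod r) with hc'
  have hval : ∀ σ, (c' σ).val = i σ := fun σ => ZMod.val_natCast_of_lt (hi σ)
  have hh : ∀ σ, h σ = ζ ^ (c' σ).val := fun σ => by rw [hval, hζi]
  have hadd : ∀ s t, c' (s * t) = c' s + c' t := by
    intro s t
    have h1 : ζ ^ i (s * t) = ζ ^ (i s + i t) := by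
      rw [pow_add, hζi, hζi, hζi, hhom s t]
    have h2 : i (s * t) ≡ i s + i t [MOD r] := by
      have hfin : IsOfFinOrder ζ := isOfFinOrder_iff_pow_eq_one.2 ⟨r, hr.pos, hζ.pow_eq_one⟩
      have := hfin.pow_eq_pow_iff_modEq.mp h1
      rwa [← hζ.eq_orderOf] at this
    have h3 := (ZMod.natCast_eq_natCast_iff _ _ _).2 h2
    rw [Nat.cast_add] at h3
    exact h3
  have hSIj : ∀ j : ℕ, Fermat.Agent.S19.IsSI A (fun s => s (ζ ^ (j * (c' s⁻¹).val))) := by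
    intro j
    refine (hSI.pow j).congr fun σ _ => ?_
    rw [hh σ⁻¹, mul_comm j, pow_mul, map_pow]
  intro τ hτ
  have h0 := F1 c' hadd ζ hζ hSIj τ hτ
  rw [hh τ, h0, ZMod.val_zero, pow_zero]

end Fermat.Agent.S15.Sel
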