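import Fermat.Agent.S15.Sel.SB.Defs
import Fermat.Agent.S19.Loc.Calc

/-!
# S15/S/SB: (F2) in the form needed by `SelData.zc`

`h` a cocycle with `h σ ^ r = 1`: `h 1 = 1` (`h 1 = h 1 * h 1`, `h 1 ≠ 0`), `h s * s (h s⁻¹) = h (s * s⁻¹) = 1`.  Given `(b, a)` as in `ValDvd`: `b ≠ 0` (`a ≠ 0`, `r ≠ 0`),
`b / s b = (h s)⁻¹ = s (h s⁻¹)`; `IsSI.congr`; `F2 a ha b hab.symm _`.
-/

set_option autoImplicit false

namespace Fermat.Agent.S15.Sel

open Fermat.Agent.Lib.InertiaField Fermat.Agent.S15.Q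

theorem valDvd_of_isSI {r : ℕ} (hr : r.Prime) (A : ValuationSubring Qb) (F2 : F2Stmt r A) (h : GQ → Qb)
    (hpow : ∀ σ, h σ ^ r = 1) (hcoc : IsCoc h)
    (hSI : Fermat.Agent.S19.IsSI A (fun s : GQ => s (h s⁻¹))) : ValDvd r r h := by
  intro b a ha hab hb
  have hne : ∀ σ, h σ ≠ 0 := by
    intro σ h0
    have := hpow σ
    rw [h0, zero_pow hr.ne_zero] at this
    exact zero_ne_one this
  have h1 : h 1 = 1 := by
    have h2 := hcoc 1 1
    rw [mul_one, AlgEquiv.one_apply] at h2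
    exact (mul_eq_left₀ (hne 1)).mp h2.symm
  have hb0 : b ≠ 0 := by
    intro h0
    rw [h0, zero_pow hr.ne_zero] at hab
    exact ha ((map_eq_zero _).mp hab)
  refine F2 a ha b hab.symm (hSI.congr fun s _ => ?_)
  have h3 : h s * s (h s⁻¹) = 1 := by rw [← hcoc, mul_inv_cancel, h1]
  rw [hb s, div_mul_cancel_right₀ hb0]
  exact (eq_inv_of_mul_eq_one_right h3).symm

end Fermat.Agent.S15.Sel
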