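import Fermat.Agent.S15.Sel.SB.Repr
import Fermat.Agent.S19.Loc.Calc

/-!
# S15/S/SB: from the contract `LocFL` to the functions `s ↦ s (lam (c s⁻¹))`

`hFL : ∀ c ∈ 𝒞, ∀ w ∈ G, IsSI A (fun s => e (c s) (s • w))`.  For a character `lam` of `G` and `c ∈ 𝒞`: `IsSI A (fun s => s (lam (c s⁻¹)))`.
Proof: `lam = e · w` on `G` (`exists_repr_char`).  `c 1 = 0` (from `coc` at `(1,1)`), `0 = c (s * s⁻¹) = c s + s • c s⁻¹`, so
`s (lam (c s⁻¹)) = s (e (c s⁻¹) w) = e (s • c s⁻¹) (s • w) = e (- c s) (s • w) = (e (c s) (s • w))⁻¹ = e (c s) (s • w) ^ (r - 1)`; `IsSI.pow`, `IsSI.congr`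
(`s • w ∈ G` by stability, `c s ∈ G` by `C.val`).
-/

set_option autoImplicit false

namespace Fermat.Agent.S15.Sel

open Fermat.Agent.Lib.InertiaField Fermat.Agent.S15.Q

variable {J : Type*} [AddCommGroup J] [DistribMulAction GQ J] {r N : ℕ} {𝔄 : Places}
  {G : AddSubgroup J} {e : J → J → Qb} {𝒞 : AddSubgroup (GQ → J)}

theorem isSI_char (hr : r.Prime) (ζ : Qb) (hζ : IsPrimitiveRoot ζ r) [Finite G]
    (gtors : ∀ g ∈ G, r • g = 0) (stable : ∀ (σ : GQ), ∀ g ∈ G, σ • g ∈ G) (E : PairData r G e)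
    (C : CocData r N 𝔄 G 𝒞) (A : ValuationSubring Qb)
    (hFL : ∀ c ∈ 𝒞, ∀ w ∈ G, Fermat.Agent.S19.IsSI A (fun s : GQ => e (c s) (s • w)))
    (c : GQ → J) (hc : c ∈ 𝒞) (lam : J → Qb) (hlam : IsChar r G lam) :
    Fermat.Agent.S19.IsSI A (fun s : GQ => s (lam (c s⁻¹))) := by
  obtain ⟨w, hw, hrep⟩ := exists_repr_char hr ζ hζ gtors E lam hlam
  have hcG : ∀ σ, c σ ∈ G := C.val hc
  have hc1 : c 1 = 0 := by
    have h := C.coc c hc 1 1
    rw [mul_one, one_smul] at h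
    exact add_eq_left.1 h.symm
  have hneg : ∀ s : GQ, s • c s⁻¹ = -c s := by
    intro s
    have h := C.coc c hc s s⁻¹
    rw [mul_inv_cancel, hc1] at h
    exact (neg_eq_of_add_eq_zero_right h.symm).symm
  refine ((hFL c hc w hw).pow (r - 1)).congr fun s _ => ?_
  have hsw : s • w ∈ G := stable s w hw
  have h1 : s (lam (c s⁻¹)) = (e (c s) (s • w))⁻¹ := by
    rw [hrep _ (hcG _), ← E.equiv s _ (hcG _) _ hw, hneg, E.neg_left hr.ne_zero _ _ (hcG s) hsw]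
  have hpow : e (c s) (s • w) ^ r = 1 := E.pow _ (hcG s) _ hsw
  have hu0 : e (c s) (s • w) ≠ 0 := by
    intro h0
    rw [h0, zero_pow hr.ne_zero] at hpow
    exact zero_ne_one hpow
  rw [h1]
  apply inv_eq_of_mul_eq_one_left
  rw [← pow_succ, Nat.sub_add_cancel hr.one_le, hpow]

end Fermat.Agent.S15.Sel
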