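import Fermat.Agent.S15.Sel.SB.Data
import Fermat.Agent.S15.Sel.Main
import Fermat.Agent.S15.Sel.Inst

/-!
# S15/S/SB: the Selmer bound `#𝒞 ≤ #G`

* `selData_odd`: `r` odd.  `σ₀` in the inertia group at `r` with `σ₀ ζ ≠ ζ` (`Q.exists_inertia_moving`), `σ₀ ζ = ζ ^ k` (`IsPrimitiveRoot.eq_pow_of_pow_eq_one`), `n` from `NilCond`;
  `Tor := valuesOn 𝒞 (inertia at N)`, `X0 := genEigen G σ₀ k n`, `Et := UnrAt (𝔄.pl r)`.  Fields: `typ` = `typ_of_nilCond`; `etc` = `isSI_char` + `unrAt_of_isSI`; `zc` = `isSI_char` + `valDvd_of_isSI`;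
  `atN` = `AddSubgroup.subset_closure`.
* `selData_two`: `r = 2`.  `X0 := valuesOn 𝒞 {κ}`, `Et h := ValDvd 2 2 h ∧ h κ = 1`; `typ` is vacuous; `etc`: `lam (c κ) = 1` because `c κ ∈ X0`; `ValDvd` from
  `Q.isCoc_of_isHom_two` + `zc`.
* `selmer_bound`: `card_le` + `chain_of_nilCond` + `card_sq_le_of_isotropic` for `Tor` (`isotropic_closure`, `locN`) and `X0` (`isotropic_genEigen` resp. `isotropic_closure`, `locInf`):
  `#𝒞 ^ 2 ≤ #Tor ^ 2 * #X0 ^ 2 ≤ #G ^ 2` (`Nat.pow_le_pow_left`, `Nat.pow_le_pow_iff_left`/`lt_of_pow_lt_pow_left`).  `Tor, X0 ≤ G` are finite (`Finite.of_injective`/`Set.Finite.subset`).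
-/

set_option autoImplicit false

namespace Fermat.Agent.S15.Sel

open Fermat.Agent.Lib.InertiaField Fermat.Agent.S15.Q

variable {J : Type*} [AddCommGroup J] [DistribMulAction GQ J] {r N : ℕ} {𝔄 : Places} {ζ : Qb}
  {G : AddSubgroup J} {e : J → J → Qb} {𝒞 : AddSubgroup (GQ → J)}

/-- **The Selmer bound.** -/
theorem selmer_bound (hr : r.Prime) (hN : N.Prime) (hrN : r ≠ N) (hζ : IsPrimitiveRoot ζ r)
    [Finite G] (gtors : ∀ g ∈ G, r • g = 0) (stable : ∀ (σ : GQ), ∀ g ∈ G, σ • g ∈ G)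
    (E : PairData r G e) (hnil : NilCond ζ G) (C : CocData r N 𝔄 G 𝒞)
    (locN : ∀ c ∈ 𝒞, ∀ c' ∈ 𝒞, ∀ τ ∈ (𝔄.pl N).inertiaSubgroupIn ℚ,
      ∀ τ' ∈ (𝔄.pl N).inertiaSubgroupIn ℚ, e (c τ) (c' τ') = 1)
    (hFL : ∀ c ∈ 𝒞, ∀ w ∈ G, Fermat.Agent.S19.IsSI (𝔄.pl r) (fun s : GQ => e (c s) (s • w)))
    (F1 : r ≠ 2 → F1Stmt r (𝔄.pl r)) (F2 : F2Stmt r (𝔄.pl r))
    (κ : GQ) (hκ : ∀ x : Qb, x ^ 2 = -1 → κ x ≠ x) (hκN : ∀ x : Qb, x ^ 2 = (N : Qb) → κ x = x)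
    (locInf : r = 2 → ∀ c ∈ 𝒞, ∀ c' ∈ 𝒞, e (c κ) (c' κ) = 1) :
    Finite 𝒞 ∧ Nat.card 𝒞 ≤ Nat.card G := by
  have hch : Chain r ⊥ G := chain_of_nilCond r hr ζ hζ G gtors stable hnil
  have hTorle : valuesOn 𝒞 ((𝔄.pl N).inertiaSubgroupIn ℚ : Set GQ) ≤ G := valuesOn_le C _
  have hTorfin : Finite (valuesOn 𝒞 ((𝔄.pl N).inertiaSubgroupIn ℚ : Set GQ)) :=
    Finite.of_injective (AddSubgroup.inclusion hTorle) (AddSubgroup.inclusion_injective _)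
  have hToriso : Isotropic e (valuesOn 𝒞 ((𝔄.pl N).inertiaSubgroupIn ℚ : Set GQ)) := by
    apply isotropic_closure hr E
    · rintro x ⟨c, hc, τ, -, rfl⟩
      exact C.val hc τ
    · rintro x ⟨c, hc, τ, hτ, rfl⟩ y ⟨c', hc', τ', hτ', rfl⟩
      exact locN c hc c' hc' τ hτ τ' hτ'
  have hTorcard := card_sq_le_of_isotropic hr ζ hζ gtors E _ hTorle hToriso
  have hfinish : ∀ X0 : AddSubgroup J, X0 ≤ G → Isotropic e X0 →
      (Finite X0 → Finite 𝒞 ∧ Nat.card 𝒞 ≤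
        Nat.card (valuesOn 𝒞 ((𝔄.pl N).inertiaSubgroupIn ℚ : Set GQ)) * Nat.card X0) →
      Finite 𝒞 ∧ Nat.card 𝒞 ≤ Nat.card G := by
    intro X0 hle hiso h
    have hfin : Finite X0 :=
      Finite.of_injective (AddSubgroup.inclusion hle) (AddSubgroup.inclusion_injective _)
    obtain ⟨f1, f2⟩ := h hfin
    refine ⟨f1, ?_⟩
    have hX := card_sq_le_of_isotropic hr ζ hζ gtors E X0 hle hiso
    have h2 : Nat.card 𝒞 ^ 2 ≤ Nat.card G ^ 2 := by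
      calc Nat.card 𝒞 ^ 2
          ≤ (Nat.card (valuesOn 𝒞 ((𝔄.pl N).inertiaSubgroupIn ℚ : Set GQ)) * Nat.card X0) ^ 2 :=
            Nat.pow_le_pow_left f2 2
        _ = Nat.card (valuesOn 𝒞 ((𝔄.pl N).inertiaSubgroupIn ℚ : Set GQ)) ^ 2 *
              Nat.card X0 ^ 2 := by ring
        _ ≤ Nat.card G * Nat.card G := Nat.mul_le_mul hTorcard hX
        _ = Nat.card G ^ 2 := by ring
    exact (Nat.pow_le_pow_iff_left (by norm_num)).1 h2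
  by_cases hr2 : r = 2
  · subst hr2
    have D := selData_two hζ gtors stable E C hFL F2 κ
    refine hfinish (valuesOn 𝒞 {κ}) (valuesOn_le C _) ?_ ?_
    · apply isotropic_closure hr E
      · rintro x ⟨c, hc, τ, -, rfl⟩
        exact C.val hc τ
      · rintro x ⟨c, hc, τ, hτ, rfl⟩ y ⟨c', hc', τ', hτ', rfl⟩
        rw [Set.mem_singleton_iff] at hτ hτ'
        rw [hτ, hτ']
        exact locInf rfl c hc c' hc'
    · intro hfin
      exact card_le hr hN hrN hζ D (etBound_real N hN 𝔄 κ hκ hκN) hch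
  · obtain ⟨σ₀, k, n, hk, hk', D⟩ := selData_odd hr hr2 hζ gtors stable E hnil C hFL (F1 hr2) F2
    refine hfinish (genEigen G σ₀ k n) inf_le_left
      (isotropic_genEigen hr ζ hζ stable E σ₀ k n hk hk') ?_
    intro hfin
    exact card_le hr hN hrN hζ D (etBound_unr r N hr hN hrN 𝔄) hch

end Fermat.Agent.S15.Sel
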